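import Mathlib
import Fermat.Agent.LT.T1.H309.AdNorm
import Fermat.Agent.LT.T5.H277.Ray
import Fermat.Agent.LT.T7.H40.ProjSpec

/-!
# Row LT, tower T7, node T7.L2.1 `SupplyC`, SHARED TOOL T7.L2.1.P3 `H40.TranslInnerC`
(helper128, SPARE of row 2105; owner helper892 keeps the row)

OFF-MAIN.  `translInnerC128 K : Fermat.Agent.LT.T7.H40.TranslInnerC K`, VERBATIM, unconditional,
every number field `K`.

Route: `Γ = GL₂(K) × ℤ` acts on `GL₂(𝔸_K)` by `(γ, m) • g = γ g rᵐ`; the frame `F` and its right
translate `F h` are strict fundamental domains of `Γ` (`r` is central, the product formula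
`T1.AdNormC` = `adNormC309` of helper309, the slab lemmas of helper277 `T5/H277/Ray.lean`); the
action preserves `μ`; Mathlib's `IsFundamentalDomain.setIntegral_eq`.  Continuity and boundedness
of `Ψ` are not used.
-/

set_option autoImplicit false

open IsDedekindDomain NumberField MeasureTheory
open Fermat.Agent.LT.H556.A0 Fermat.Agent.LT.T5 Fermat.Agent.LT.T5.H277

noncomputable section

namespace Fermat.Agent.LT.T7.H128

variable {K : Type} [Field K] [NumberField K]

attribute [local instance] Fermat.Agent.LT.T5.instMeasurableSpaceG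

/-- The action of `GL₂(K) × ℤ` on `GL₂(𝔸_K)`: `(γ, m) • g = γ g rᵐ`. -/
@[reducible] def tileAct128 (r : G K) : MulAction (GL (Fin 2) K × Multiplicative ℤ) (G K) where
  smul i g := ratG i.1 * g * r ^ (Multiplicative.toAdd i.2)
  one_smul g := by
    show ratG (1 : GL (Fin 2) K) * g * r ^ (Multiplicative.toAdd (1 : Multiplicative ℤ)) = g
    rw [map_one, one_mul, toAdd_one, zpow_zero, mul_one]
  mul_smul i j g := by
    show ratG (i.1 * j.1) * g * r ^ (Multiplicative.toAdd (i.2 * j.2))
      = ratG i.1 * (ratG j.1 * g * r ^ (Multiplicative.toAdd j.2))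
          * r ^ (Multiplicative.toAdd i.2)
    rw [map_mul, toAdd_mul, add_comm, zpow_add]
    simp only [mul_assoc]

theorem tileAct_smul128 (r : G K) (i : GL (Fin 2) K × Multiplicative ℤ) (g : G K) :
    (tileAct128 r).toSMul.smul i g = ratG i.1 * g * r ^ (Multiplicative.toAdd i.2) := rfl

/-- Right invariance under the powers of `r`. -/
theorem inv_zpow128 {Ψ : G K → ℂ} {r : G K} (h : ∀ g : G K, Ψ (g * r) = Ψ g) (m : ℤ) (g : G K) :
    Ψ (g * r ^ m) = Ψ g := by
  have hn : ∀ (n : ℕ) (g : G K), Ψ (g * r ^ n) = Ψ g := by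
    intro n
    induction n with
    | zero => intro g; rw [pow_zero, mul_one]
    | succ n ih => intro g; rw [pow_succ, ← mul_assoc, h, ih]
  have hneg : ∀ (n : ℕ) (g : G K), Ψ (g * (r ^ n)⁻¹) = Ψ g := by
    intro n g
    have := hn n (g * (r ^ n)⁻¹)
    rw [inv_mul_cancel_right] at this
    exact this.symm
  cases m with
  | ofNat n => simpa using hn n g
  | negSucc n => rw [zpow_negSucc]; exact hneg (n + 1) g

/-- Every point has exactly one translate in the frame. -/
theorem existsUnique_tile128 (hN : T1.AdNormC K) {μ : Measure (G K)} {F : Set (G K)} {r : G K}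
    (hF : IsFrame μ F) (hr : IsRayGen r) (x : G K) :
    ∃! i : GL (Fin 2) K × Multiplicative ℤ,
      ratG i.1 * x * r ^ (Multiplicative.toAdd i.2) ∈ F := by
  obtain ⟨m, hm⟩ := exists_zpow_mem_slab277 hN hr x
  obtain ⟨γ, hγ, hγu⟩ := hF.strict (x * r ^ m) hm
  refine ⟨(γ, Multiplicative.ofAdd m), ?_, ?_⟩
  · show ratG γ * x * r ^ m ∈ F
    rw [mul_assoc]
    exact hγ
  · rintro ⟨γ', m'⟩ hi
    have hi' : ratG γ' * (x * r ^ (Multiplicative.toAdd m')) ∈ F := by
      rw [← mul_assoc]
      exact hi
    have hs' : x * r ^ (Multiplicative.toAdd m') ∈ slab K := by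
      have h1 := hF.sub hi'
      rw [mem_slab_iff277, nd277_mul hN, nd277_ratG hN, one_mul] at h1
      exact (mem_slab_iff277 _).2 h1
    have hmm : Multiplicative.toAdd m' = m := by
      have e : (x * r ^ (Multiplicative.toAdd m')) * r ^ (-(Multiplicative.toAdd m'))
          = (x * r ^ m) * r ^ (-m) := by
        rw [mul_assoc, mul_assoc, ← zpow_add, ← zpow_add, add_neg_cancel, add_neg_cancel]
      have := zpow_eq_of_mem_slab277 hN hr _ _ hs' hm e
      exact neg_injective this
    have hm' : m' = Multiplicative.ofAdd m := by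
      rw [← hmm]
      rfl
    subst hm'
    have hγ' : γ' = γ := hγu γ' hi'
    subst hγ'
    rfl

variable (K)

/-- **T7.L2.1.P3.**  `H40.TranslInnerC K`. -/
theorem translInnerC128 : Fermat.Agent.LT.T7.H40.TranslInnerC K := by
  intro μ F r hF hr Ψ _ _ hleft hright h
  have hN : T1.AdNormC K := Fermat.Agent.LT.T1.H309.adNormC309 K
  have hB : BorelSpace (G K) := borelSpaceG277
  have hH := hF.haar
  let act : MulAction (GL (Fin 2) K × Multiplicative ℤ) (G K) := tileAct128 r
  have hsmul : ∀ (i : GL (Fin 2) K × Multiplicative ℤ) (g : G K),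
      i • g = ratG i.1 * g * r ^ (Multiplicative.toAdd i.2) := fun _ _ => rfl
  have hcount : Countable (GL (Fin 2) K × Multiplicative ℤ) := by
    have := countable_GL277 K
    infer_instance
  -- the action is continuous, measurable and measure preserving
  have hcont : ∀ i : GL (Fin 2) K × Multiplicative ℤ, Continuous fun g : G K => i • g := by
    intro i
    simp only [hsmul]
    exact (continuous_const.mul continuous_id).mul continuous_const
  have hmeasSMul : MeasurableConstSMul (GL (Fin 2) K × Multiplicative ℤ) (G K) :=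
    ⟨fun i => (hcont i).measurable⟩
  have hinv : SMulInvariantMeasure (GL (Fin 2) K × Multiplicative ℤ) (G K) μ := by
    refine ⟨fun i A hA => ?_⟩
    have e : (fun g : G K => i • g) ⁻¹' A
        = (fun g : G K => ratG i.1 * g) ⁻¹'
            ((fun g : G K => g * r ^ (Multiplicative.toAdd i.2)) ⁻¹' A) := by
      ext g
      simp only [Set.mem_preimage, hsmul]
    rw [e]
    have hA' : MeasurableSet ((fun g : G K => g * r ^ (Multiplicative.toAdd i.2)) ⁻¹' A) :=
      (continuous_mul_const _).measurable hA
    rw [measure_preimage_mul μ (ratG i.1)]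
    exact hF.right_inv _ A hA
  -- `F` is a fundamental domain
  have hFD : IsFundamentalDomain (GL (Fin 2) K × Multiplicative ℤ) F μ :=
    IsFundamentalDomain.mk' hF.meas.nullMeasurableSet
      (fun x => existsUnique_tile128 hN hF hr x)
  -- the right translate of `F`
  have hmp : MeasurePreserving (fun x : G K => x * h) μ μ := by
    have hm : Measurable (fun x : G K => x * h) := (continuous_mul_const _).measurable
    refine ⟨hm, ?_⟩
    ext A hA
    rw [Measure.map_apply hm hA]
    exact hF.right_inv _ A hA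
  have hemb : MeasurableEmbedding (fun x : G K => x * h) :=
    (Homeomorph.mulRight h).measurableEmbedding
  have hFh : IsFundamentalDomain (GL (Fin 2) K × Multiplicative ℤ)
      ((fun x : G K => x * h) '' F) μ := by
    refine IsFundamentalDomain.mk' (hemb.measurableSet_image.2 hF.meas).nullMeasurableSet ?_
    intro x
    obtain ⟨i, hi, hiu⟩ := existsUnique_tile128 hN hF hr (x * h⁻¹)
    have key : ∀ j : GL (Fin 2) K × Multiplicative ℤ,
        j • x ∈ (fun x : G K => x * h) '' F
          ↔ ratG j.1 * (x * h⁻¹) * r ^ (Multiplicative.toAdd j.2) ∈ F := by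
      intro j
      have e : ratG j.1 * (x * h⁻¹) * r ^ (Multiplicative.toAdd j.2)
          = (j • x) * h⁻¹ := by
        rw [hsmul]
        have hc := ray_zpow_comm277 hr h⁻¹ (Multiplicative.toAdd j.2)
        calc ratG j.1 * (x * h⁻¹) * r ^ (Multiplicative.toAdd j.2)
            = ratG j.1 * x * (h⁻¹ * r ^ (Multiplicative.toAdd j.2)) := by
              simp only [mul_assoc]
          _ = ratG j.1 * x * (r ^ (Multiplicative.toAdd j.2) * h⁻¹) := by rw [hc]
          _ = ratG j.1 * x * r ^ (Multiplicative.toAdd j.2) * h⁻¹ := by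
              simp only [mul_assoc]
      rw [e]
      constructor
      · rintro ⟨y, hy, hyx⟩
        have : y = (j • x) * h⁻¹ := by
          rw [← hyx]
          simp
        rw [← this]
        exact hy
      · intro hy
        exact ⟨(j • x) * h⁻¹, hy, by simp⟩
    exact ⟨i, (key i).2 hi, fun j hj => hiu j ((key j).1 hj)⟩
  -- invariance of `Ψ`
  have hΨ : ∀ (i : GL (Fin 2) K × Multiplicative ℤ) (x : G K), Ψ (i • x) = Ψ x := by
    intro i x
    rw [hsmul, inv_zpow128 hright, hleft]
  calc ∫ x in F, Ψ (x * h) ∂μ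
      = ∫ y in (fun x : G K => x * h) '' F, Ψ y ∂μ :=
        (hmp.setIntegral_image_emb hemb Ψ F).symm
    _ = ∫ x in F, Ψ x ∂μ := hFh.setIntegral_eq hFD hΨ

end Fermat.Agent.LT.T7.H128
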