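import Mathlib
import Fermat.Agent.LT.T1.H309.AdNorm
import Fermat.Agent.LT.T5.H277.Ray
import Fermat.Agent.LT.T7.H534.DownBasisSpec
import Fermat.Agent.LT.T7.H128.TranslInner

/-!
# Row LT, tower T7, leaf T7.L2.3.5.1 `SD534.CuspFormC` (helper128, SPARE of row 2179)

OFF-MAIN.  `cuspFormC128 K : Fermat.Agent.LT.T7.SD534.CuspFormC K`, VERBATIM, unconditional,
every number field `K`.

* linearity, hermitian symmetry, positivity: bounded continuous functions on a finite measure
  space;
* definiteness: `{f ≠ 0}` is open and invariant under `Γ = GL₂(K) × ℤ` (`(γ, m) • g = γ g rᵐ`),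
  `F` is a fundamental domain of `Γ` (`existsUnique_tile128`), so `μ {f ≠ 0} = 0` and `f = 0`;
* linearity of the convolution: a test function is continuous with compact support.
-/

set_option autoImplicit false

open IsDedekindDomain NumberField MeasureTheory
open scoped ComplexConjugate Pointwise
open Fermat.Agent.LT.H556.A0 Fermat.Agent.LT.T5 Fermat.Agent.LT.T5.H277

noncomputable section

namespace Fermat.Agent.LT.T7.H128

variable {K : Type} [Field K] [NumberField K]

attribute [local instance] Fermat.Agent.LT.T5.instMeasurableSpaceG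

/-- The product `f · conj f'` of two bounded continuous functions is integrable on the frame. -/
theorem integrable_mul_conj128 {μ : Measure (G K)} {F : Set (G K)} (hF : IsFrame μ F)
    {f f' : G K → ℂ} (hf : Continuous f) (hf' : Continuous f')
    (hb : ∃ C : ℝ, ∀ g : G K, ‖f g‖ ≤ C) (hb' : ∃ C : ℝ, ∀ g : G K, ‖f' g‖ ≤ C) :
    Integrable (fun x => f x * conj (f' x)) (μ.restrict F) := by
  have hB : BorelSpace (G K) := borelSpaceG277
  have hfin : IsFiniteMeasure (μ.restrict F) := ⟨by simpa using hF.finite⟩
  obtain ⟨C, hC⟩ := hb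
  obtain ⟨C', hC'⟩ := hb'
  refine Integrable.of_bound
    (hf.mul (Complex.continuous_conj.comp hf')).aestronglyMeasurable (C * C')
    (Filter.Eventually.of_forall fun x => ?_)
  rw [norm_mul, RCLike.norm_conj]
  exact mul_le_mul (hC x) (hC' x) (norm_nonneg _) ((norm_nonneg _).trans (hC x))

/-- A continuous function, invariant under `GL₂(K)` on the left and under `r` on the right,
which vanishes almost everywhere on the frame, vanishes everywhere. -/
theorem eq_zero_of_ae_frame128 {μ : Measure (G K)} {F : Set (G K)} {r : G K}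
    (hF : IsFrame μ F) (hr : IsRayGen r) {f : G K → ℂ} (hf : Continuous f)
    (hleft : ∀ (γ : GL (Fin 2) K) (g : G K), f (ratG γ * g) = f g)
    (hright : ∀ g : G K, f (g * r) = f g)
    (h0 : μ ({x | f x ≠ 0} ∩ F) = 0) : f = 0 := by
  have hN : T1.AdNormC K := Fermat.Agent.LT.T1.H309.adNormC309 K
  have hB : BorelSpace (G K) := borelSpaceG277
  have hH := hF.haar
  let act : MulAction (GL (Fin 2) K × Multiplicative ℤ) (G K) := tileAct128 r
  have hsmul : ∀ (i : GL (Fin 2) K × Multiplicative ℤ) (g : G K),
      i • g = ratG i.1 * g * r ^ (Multiplicative.toAdd i.2) := fun _ _ => rfl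
  have hcount : Countable (GL (Fin 2) K × Multiplicative ℤ) := by
    have := countable_GL277 K
    infer_instance
  have hcont : ∀ i : GL (Fin 2) K × Multiplicative ℤ, Continuous fun g : G K => i • g := by
    intro i
    simp only [hsmul]
    exact (continuous_const.mul continuous_id).mul continuous_const
  have hmeasSMul : MeasurableConstSMul (GL (Fin 2) K × Multiplicative ℤ) (G K) :=
    ⟨fun i => (hcont i).measurable⟩
  have hinv : SMulInvariantMeasure (GL (Fin 2) K × Multiplicative ℤ) (G K) μ := by
    refine ⟨fun i A hA => ?_⟩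
    have e : (fun g : G K => i • g) ⁻¹' A
        = (fun g : G K => ratG i.1 * g) ⁻¹'
            ((fun g : G K => g * r ^ (Multiplicative.toAdd i.2)) ⁻¹' A) := by
      ext g
      simp only [Set.mem_preimage, hsmul]
    rw [e]
    rw [measure_preimage_mul μ (ratG i.1)]
    exact hF.right_inv _ A hA
  have hFD : IsFundamentalDomain (GL (Fin 2) K × Multiplicative ℤ) F μ :=
    IsFundamentalDomain.mk' hF.meas.nullMeasurableSet
      (fun x => existsUnique_tile128 hN hF hr x)
  have hfi : ∀ (i : GL (Fin 2) K × Multiplicative ℤ) (x : G K), f (i • x) = f x := by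
    intro i x
    rw [hsmul, inv_zpow128 hright, hleft]
  have hinvset : ∀ i : GL (Fin 2) K × Multiplicative ℤ, i • {x | f x ≠ 0} = {x | f x ≠ 0} := by
    intro i
    ext y
    constructor
    · rintro ⟨x, hx, rfl⟩
      show f (i • x) ≠ 0
      rw [hfi]
      exact hx
    · intro hy
      refine ⟨i⁻¹ • y, ?_, smul_inv_smul i y⟩
      show f (i⁻¹ • y) ≠ 0
      rw [hfi]
      exact hy
  have hμ0 : μ {x | f x ≠ 0} = 0 := hFD.measure_zero_of_invariant _ hinvset h0
  have hopen : IsOpen {x | f x ≠ 0} := isOpen_ne_fun hf continuous_const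
  funext x
  by_contra hx
  have hne : ({x | f x ≠ 0} : Set (G K)).Nonempty := ⟨x, hx⟩
  exact (hopen.measure_pos μ hne).ne' hμ0

variable (K)

/-- **T7.L2.3.5.1.**  `SD534.CuspFormC K`. -/
theorem cuspFormC128 : Fermat.Agent.LT.T7.SD534.CuspFormC K := by
  intro μ F r 𝔫 _ hF hr
  have hB : BorelSpace (G K) := borelSpaceG277
  have hH := hF.haar
  have hfin : IsFiniteMeasure (μ.restrict F) := ⟨by simpa using hF.finite⟩
  have hI : ∀ f f' : G K → ℂ, T5.IsCuspFn 𝔫 T5.trivType r f → T5.IsCuspFn 𝔫 T5.trivType r f' →
      Integrable (fun x => f x * conj (f' x)) (μ.restrict F) :=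
    fun f f' hf hf' => integrable_mul_conj128 hF hf.cont hf'.cont hf.bdd hf'.bdd
  refine ⟨?_, ?_, ?_, ?_, ?_, ?_, ?_⟩
  · -- add_left
    intro f f' f'' hf hf' hf''
    unfold T5.innerD
    rw [← integral_add (hI f f'' hf hf'') (hI f' f'' hf' hf'')]
    refine integral_congr_ae (Filter.Eventually.of_forall fun x => ?_)
    simp only [Pi.add_apply]
    ring
  · -- smul_left
    intro a f f' _ _
    unfold T5.innerD
    rw [← integral_const_mul]
    refine integral_congr_ae (Filter.Eventually.of_forall fun x => ?_)
    simp only [Pi.smul_apply, smul_eq_mul]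
    ring
  · -- conj_symm
    intro f f' _ _
    unfold T5.innerD
    rw [← integral_conj]
    refine integral_congr_ae (Filter.Eventually.of_forall fun x => ?_)
    simp only [map_mul, Complex.conj_conj]
    ring
  · -- nonneg
    intro f _
    unfold T5.innerD
    have e : (fun x => f x * conj (f x)) = fun x => ((‖f x‖ ^ 2 : ℝ) : ℂ) := by
      funext x
      rw [RCLike.mul_conj]
      norm_cast
    rw [e]
    have e2 : (∫ x in F, ((‖f x‖ ^ 2 : ℝ) : ℂ) ∂μ) = ((∫ x in F, ‖f x‖ ^ 2 ∂μ : ℝ) : ℂ) :=
      integral_ofReal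
    rw [e2, Complex.ofReal_re]
    exact integral_nonneg fun x => by positivity
  · -- definite
    intro f hf h0
    unfold T5.innerD at h0
    have e : (fun x => f x * conj (f x)) = fun x => ((‖f x‖ ^ 2 : ℝ) : ℂ) := by
      funext x
      rw [RCLike.mul_conj]
      norm_cast
    rw [e] at h0
    have e2 : (∫ x in F, ((‖f x‖ ^ 2 : ℝ) : ℂ) ∂μ) = ((∫ x in F, ‖f x‖ ^ 2 ∂μ : ℝ) : ℂ) :=
      integral_ofReal
    rw [e2] at h0
    have h1 : ∫ x in F, ‖f x‖ ^ 2 ∂μ = 0 := by exact_mod_cast h0
    have hint : Integrable (fun x => ‖f x‖ ^ 2) (μ.restrict F) := by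
      obtain ⟨C, hC⟩ := hf.bdd
      refine Integrable.of_bound (hf.cont.norm.pow 2).aestronglyMeasurable (C ^ 2)
        (Filter.Eventually.of_forall fun x => ?_)
      rw [Real.norm_eq_abs, abs_of_nonneg (by positivity)]
      exact pow_le_pow_left₀ (norm_nonneg _) (hC x) 2
    have h2 := (integral_eq_zero_iff_of_nonneg (fun x => by positivity) hint).1 h1
    have h3 : μ ({x | f x ≠ 0} ∩ F) = 0 := by
      have h4 : (μ.restrict F) {x | f x ≠ 0} = 0 := by
        rw [Filter.EventuallyEq, ae_iff] at h2
        refine measure_mono_null ?_ h2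
        intro x hx
        simp only [Set.mem_ofPred_eq, Pi.zero_apply] at hx ⊢
        intro h5
        exact hx (by simpa using h5)
      rwa [Measure.restrict_apply' hF.meas] at h4
    exact eq_zero_of_ae_frame128 hF hr hf.cont hf.aut.left_inv hf.aut.ray h3
  · -- conv_add
    intro φ f f' hφ hf hf'
    funext x
    unfold T5.Rconv
    have hi : ∀ e : G K → ℂ, Continuous e → Integrable (fun y => φ y * e (x * y)) μ := by
      intro e he
      exact (hφ.cont.mul (he.comp (continuous_const.mul continuous_id))).integrable_of_hasCompactSupport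
        hφ.supp.mul_right
    simp only [Pi.add_apply]
    rw [← integral_add (hi f hf.cont) (hi f' hf'.cont)]
    refine integral_congr_ae (Filter.Eventually.of_forall fun y => ?_)
    simp only
    ring
  · -- conv_smul
    intro φ a f _ _
    funext x
    unfold T5.Rconv
    simp only [Pi.smul_apply, smul_eq_mul]
    rw [← integral_const_mul]
    refine integral_congr_ae (Filter.Eventually.of_forall fun y => ?_)
    simp only
    ring

end Fermat.Agent.LT.T7.H128
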