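import Mathlib

/-!
# Row LT, tower T7, leaf T7.L2.3.5.7 `SD534.SubSeqC` — Mathlib-only core (helper128, SPARE)

OFF-MAIN.  Mathlib only.

* `parseval_of_mem_closure128` : Parseval for an orthogonal sequence (zero vectors allowed) and
  a vector in the closure of its span (elementary: best approximation by the partial sums).
* `exists_orthoSeq128` : a subspace `T` of a separable inner product space has an orthogonal
  sequence of members of `T` (unit vectors or `0`) with `T ⊆ closure (span)` (Gram--Schmidt on a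
  dense sequence of `T`).
* `exists_l2_seq128` : the form used by the leaf: a linear space `S` of square integrable
  functions on a finite separable measure space.
-/

set_option autoImplicit false

open MeasureTheory Filter Topology InnerProductSpace
open scoped InnerProductSpace ComplexConjugate ENNReal

noncomputable section

namespace Fermat.Agent.LT.T7.H128

section Hilbert

variable {E : Type*} [NormedAddCommGroup E] [InnerProductSpace ℂ E]

/-- The span of the first `N` vectors. -/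
def spanLt128 (g : ℕ → E) (N : ℕ) : Submodule ℂ E :=
  Submodule.span ℂ (g '' {n | n < N})

theorem spanLt_mono128 (g : ℕ → E) {N M : ℕ} (h : N ≤ M) : spanLt128 g N ≤ spanLt128 g M :=
  Submodule.span_mono (Set.image_mono fun _ hn => lt_of_lt_of_le hn h)

theorem exists_mem_spanLt128 (g : ℕ → E) {y : E} (hy : y ∈ Submodule.span ℂ (Set.range g)) :
    ∃ N, y ∈ spanLt128 g N := by
  induction hy using Submodule.span_induction with
  | mem y hy =>
    obtain ⟨n, rfl⟩ := hy
    exact ⟨n + 1, Submodule.subset_span ⟨n, Nat.lt_succ_self n, rfl⟩⟩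
  | zero => exact ⟨0, Submodule.zero_mem _⟩
  | add y z _ _ hy hz =>
    obtain ⟨N, hN⟩ := hy
    obtain ⟨M, hM⟩ := hz
    exact ⟨max N M, Submodule.add_mem _ (spanLt_mono128 g (le_max_left N M) hN)
      (spanLt_mono128 g (le_max_right N M) hM)⟩
  | smul a y _ hy =>
    obtain ⟨N, hN⟩ := hy
    exact ⟨N, Submodule.smul_mem _ a hN⟩

/-- The partial sums of the expansion. -/
def partSum128 (g : ℕ → E) (x : E) (N : ℕ) : E :=
  ∑ n ∈ Finset.range N, ⟪g n, x⟫_ℂ • g n

theorem partSum_mem128 (g : ℕ → E) (x : E) (N : ℕ) : partSum128 g x N ∈ spanLt128 g N := by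
  unfold partSum128
  refine Submodule.sum_mem _ fun n hn => Submodule.smul_mem _ _ ?_
  exact Submodule.subset_span ⟨n, Finset.mem_range.1 hn, rfl⟩

theorem inner_self_cases128 (g : ℕ → E) (hnorm : ∀ n, ‖g n‖ = 1 ∨ g n = 0) (x : E) (n : ℕ) :
    ⟪g n, x⟫_ℂ * ⟪g n, g n⟫_ℂ = ⟪g n, x⟫_ℂ := by
  rcases hnorm n with h | h
  · rw [inner_self_eq_norm_sq_to_K, h]
    simp
  · rw [h]
    simp

theorem inner_partSum128 (g : ℕ → E) (horth : ∀ n m, n ≠ m → ⟪g n, g m⟫_ℂ = 0)
    (hnorm : ∀ n, ‖g n‖ = 1 ∨ g n = 0) (x : E) {m N : ℕ} (hm : m < N) :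
    ⟪g m, partSum128 g x N⟫_ℂ = ⟪g m, x⟫_ℂ := by
  unfold partSum128
  rw [inner_sum]
  rw [Finset.sum_eq_single m]
  · rw [inner_smul_right]
    exact inner_self_cases128 g hnorm x m
  · intro n _ hnm
    rw [inner_smul_right, horth m n (Ne.symm hnm), mul_zero]
  · intro h
    exact absurd (Finset.mem_range.2 hm) h

theorem inner_sub_partSum128 (g : ℕ → E) (horth : ∀ n m, n ≠ m → ⟪g n, g m⟫_ℂ = 0)
    (hnorm : ∀ n, ‖g n‖ = 1 ∨ g n = 0) (x : E) (N : ℕ) {y : E} (hy : y ∈ spanLt128 g N) :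
    ⟪y, x - partSum128 g x N⟫_ℂ = 0 := by
  unfold spanLt128 at hy
  induction hy using Submodule.span_induction with
  | mem y hy =>
    obtain ⟨m, hm, rfl⟩ := hy
    rw [inner_sub_right, inner_partSum128 g horth hnorm x hm, sub_self]
  | zero => simp
  | add y z _ _ hy hz => rw [inner_add_left, hy, hz, add_zero]
  | smul a y _ hy => rw [inner_smul_left, hy, mul_zero]

/-- Best approximation. -/
theorem norm_sub_partSum_le128 (g : ℕ → E) (horth : ∀ n m, n ≠ m → ⟪g n, g m⟫_ℂ = 0)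
    (hnorm : ∀ n, ‖g n‖ = 1 ∨ g n = 0) (x : E) (N : ℕ) {y : E} (hy : y ∈ spanLt128 g N) :
    ‖x - partSum128 g x N‖ ≤ ‖x - y‖ := by
  have hz : partSum128 g x N - y ∈ spanLt128 g N :=
    Submodule.sub_mem _ (partSum_mem128 g x N) hy
  have h0 : ⟪x - partSum128 g x N, partSum128 g x N - y⟫_ℂ = 0 := by
    rw [← inner_conj_symm, inner_sub_partSum128 g horth hnorm x N hz, map_zero]
  have h1 := norm_add_sq_eq_norm_sq_add_norm_sq_of_inner_eq_zero _ _ h0
  have h2 : x - partSum128 g x N + (partSum128 g x N - y) = x - y := by abel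
  rw [h2] at h1
  have h3 : ‖x - partSum128 g x N‖ * ‖x - partSum128 g x N‖ ≤ ‖x - y‖ * ‖x - y‖ := by
    rw [h1]
    nlinarith [mul_self_nonneg ‖partSum128 g x N - y‖]
  exact (mul_self_le_mul_self_iff (norm_nonneg _) (norm_nonneg _)).2 h3

/-- Pythagoras for the partial sums. -/
theorem norm_sq_eq_partSum128 (g : ℕ → E) (horth : ∀ n m, n ≠ m → ⟪g n, g m⟫_ℂ = 0)
    (hnorm : ∀ n, ‖g n‖ = 1 ∨ g n = 0) (x : E) (N : ℕ) :
    ‖x‖ ^ 2 = ‖x - partSum128 g x N‖ ^ 2 + ∑ n ∈ Finset.range N, ‖⟪g n, x⟫_ℂ‖ ^ 2 := by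
  have h0 : ⟪x - partSum128 g x N, partSum128 g x N⟫_ℂ = 0 := by
    rw [← inner_conj_symm, inner_sub_partSum128 g horth hnorm x N (partSum_mem128 g x N),
      map_zero]
  have h1 := norm_add_sq_eq_norm_sq_add_norm_sq_of_inner_eq_zero _ _ h0
  rw [sub_add_cancel] at h1
  have h2 : ‖partSum128 g x N‖ ^ 2 = ∑ n ∈ Finset.range N, ‖⟪g n, x⟫_ℂ‖ ^ 2 := by
    have h3 : ⟪partSum128 g x N, partSum128 g x N⟫_ℂ
        = ∑ n ∈ Finset.range N, ((‖⟪g n, x⟫_ℂ‖ : ℝ) : ℂ) ^ 2 := by
      have e : ⟪partSum128 g x N, partSum128 g x N⟫_ℂ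
          = ∑ n ∈ Finset.range N, ⟪⟪g n, x⟫_ℂ • g n, partSum128 g x N⟫_ℂ := by
        rw [← sum_inner]
        rfl
      rw [e]
      refine Finset.sum_congr rfl fun n hn => ?_
      rw [inner_smul_left, inner_partSum128 g horth hnorm x (Finset.mem_range.1 hn)]
      exact RCLike.conj_mul _
    have h4 := inner_self_eq_norm_sq_to_K (𝕜 := ℂ) (partSum128 g x N)
    rw [h3] at h4
    have h5 : ((∑ n ∈ Finset.range N, ‖⟪g n, x⟫_ℂ‖ ^ 2 : ℝ) : ℂ)
        = ((‖partSum128 g x N‖ ^ 2 : ℝ) : ℂ) := by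
      push_cast
      exact h4
    exact (Complex.ofReal_injective h5).symm
  rw [sq, h1, ← sq, ← sq, h2]

/-- **Parseval** for an orthogonal sequence (zero vectors allowed) and a vector in the closure
of its span. -/
theorem parseval_of_mem_closure128 (g : ℕ → E) (horth : ∀ n m, n ≠ m → ⟪g n, g m⟫_ℂ = 0)
    (hnorm : ∀ n, ‖g n‖ = 1 ∨ g n = 0) (x : E)
    (hx : x ∈ closure (Submodule.span ℂ (Set.range g) : Set E)) :
    HasSum (fun n => ‖⟪g n, x⟫_ℂ‖ ^ 2) (‖x‖ ^ 2) := by
  rw [hasSum_iff_tendsto_nat_of_nonneg (fun n => by positivity)]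
  have hlim : Tendsto (fun N => ‖x - partSum128 g x N‖) atTop (𝓝 0) := by
    rw [Metric.tendsto_atTop]
    intro ε hε
    obtain ⟨y, hy, hxy⟩ := Metric.mem_closure_iff.1 hx ε hε
    obtain ⟨N₀, hN₀⟩ := exists_mem_spanLt128 g hy
    refine ⟨N₀, fun N hN => ?_⟩
    rw [Real.dist_eq, sub_zero, abs_of_nonneg (norm_nonneg _)]
    have h1 := norm_sub_partSum_le128 g horth hnorm x N (spanLt_mono128 g hN hN₀)
    rw [dist_eq_norm] at hxy
    exact lt_of_le_of_lt h1 hxy
  have hlim2 : Tendsto (fun N => ‖x‖ ^ 2 - ‖x - partSum128 g x N‖ ^ 2) atTop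
      (𝓝 (‖x‖ ^ 2 - 0 ^ 2)) := tendsto_const_nhds.sub (hlim.pow 2)
  have e : (fun N => ∑ n ∈ Finset.range N, ‖⟪g n, x⟫_ℂ‖ ^ 2)
      = fun N => ‖x‖ ^ 2 - ‖x - partSum128 g x N‖ ^ 2 := by
    funext N
    have := norm_sq_eq_partSum128 g horth hnorm x N
    linarith
  rw [e]
  simpa using hlim2

/-- **Gram--Schmidt on a dense sequence**: a subspace of a separable inner product space has an
orthogonal sequence of its members (unit vectors or zero) whose span is dense in it. -/
theorem exists_orthoSeq128 [TopologicalSpace.SeparableSpace E] (T : Submodule ℂ E) :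
    ∃ g : ℕ → E, (∀ n, g n ∈ T) ∧ (∀ n m, n ≠ m → ⟪g n, g m⟫_ℂ = 0) ∧
      (∀ n, ‖g n‖ = 1 ∨ g n = 0) ∧
      (T : Set E) ⊆ closure (Submodule.span ℂ (Set.range g) : Set E) := by
  have hsep : TopologicalSpace.IsSeparable (T : Set E) :=
    (TopologicalSpace.isSeparable_univ_iff.2 inferInstance).mono (Set.subset_univ _)
  obtain ⟨D, hDT, hDc, hTD⟩ := hsep.exists_countable_dense_subset
  have hD' : (insert (0 : E) D).Countable := hDc.insert 0
  obtain ⟨d, hd⟩ := hD'.exists_eq_range (Set.insert_nonempty 0 D)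
  have hdT : ∀ n, d n ∈ T := by
    intro n
    have : d n ∈ insert (0 : E) D := by rw [hd]; exact Set.mem_range_self n
    rcases this with h | h
    · rw [h]; exact T.zero_mem
    · exact hDT h
  have hspan : Submodule.span ℂ (Set.range (gramSchmidtNormed ℂ d))
      = Submodule.span ℂ (Set.range d) := by
    rw [span_gramSchmidtNormed_range, span_gramSchmidt]
  refine ⟨gramSchmidtNormed ℂ d, ?_, ?_, ?_, ?_⟩
  · intro n
    have h1 : gramSchmidtNormed ℂ d n ∈ Submodule.span ℂ (Set.range (gramSchmidtNormed ℂ d)) :=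
      Submodule.subset_span (Set.mem_range_self n)
    rw [hspan] at h1
    exact (Submodule.span_le.2 (by rintro _ ⟨n, rfl⟩; exact hdT n)) h1
  · intro n m hnm
    have h := gramSchmidt_orthogonal ℂ d hnm
    show ⟪(‖gramSchmidt ℂ d n‖ : ℂ)⁻¹ • gramSchmidt ℂ d n,
      (‖gramSchmidt ℂ d m‖ : ℂ)⁻¹ • gramSchmidt ℂ d m⟫_ℂ = 0
    rw [inner_smul_left, inner_smul_right, h, mul_zero, mul_zero]
  · intro n
    by_cases h : gramSchmidtNormed ℂ d n = 0
    · exact Or.inr h
    · exact Or.inl (gramSchmidtNormed_unit_length' h)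
  · rw [hspan]
    refine hTD.trans (closure_mono ?_)
    intro y hy
    have : y ∈ Set.range d := by rw [← hd]; exact Set.mem_insert_of_mem 0 hy
    exact Submodule.subset_span this

end Hilbert

/-! ## The `L²` form -/

section L2

variable {X : Type*} [MeasurableSpace X] (ν : Measure X)

/-- The inner product of the classes in `L²` is the integral of `f · conj h`. -/
theorem inner_toLp128 {f h : X → ℂ} (hf : MemLp f 2 ν) (hh : MemLp h 2 ν) :
    ⟪hh.toLp h, hf.toLp f⟫_ℂ = ∫ x, f x * conj (h x) ∂ν := by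
  rw [L2.inner_def]
  refine integral_congr_ae ?_
  filter_upwards [hf.coeFn_toLp, hh.coeFn_toLp] with x hx1 hx2
  rw [hx1, hx2]
  simp

/-- **The core of `SubSeqC`**: a linear space `S` of square integrable functions on a measure
space with separable `L²` has an orthogonal sequence of its members (norm one or the zero
function) which is complete in `S`. -/
theorem exists_l2_seq128 [TopologicalSpace.SeparableSpace (Lp ℂ 2 ν)]
    (S : (X → ℂ) → Prop) (hmem : ∀ f, S f → MemLp f 2 ν) (h0 : S 0)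
    (hadd : ∀ f f', S f → S f' → S (f + f')) (hsmul : ∀ (a : ℂ) (f : X → ℂ), S f → S (a • f)) :
    ∃ p : ℕ → X → ℂ, (∀ n, S (p n)) ∧
      (∀ n m, n ≠ m → ∫ x, p n x * conj (p m x) ∂ν = 0) ∧
      (∀ n, ∫ x, p n x * conj (p n x) ∂ν = 1 ∨ p n = 0) ∧
      ∀ f : X → ℂ, S f →
        HasSum (fun n => ‖∫ x, f x * conj (p n x) ∂ν‖ ^ 2) (∫ x, f x * conj (f x) ∂ν).re := by
  -- the image of `S` in `L²`
  let T : Submodule ℂ (Lp ℂ 2 ν) :=
    { carrier := {y | ∃ (f : X → ℂ) (hS : S f), (hmem f hS).toLp f = y}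
      zero_mem' := ⟨0, h0, MemLp.toLp_zero _⟩
      add_mem' := by
        rintro _ _ ⟨f, hf, rfl⟩ ⟨f', hf', rfl⟩
        exact ⟨f + f', hadd f f' hf hf', MemLp.toLp_add (hmem f hf) (hmem f' hf')⟩
      smul_mem' := by
        rintro a _ ⟨f, hf, rfl⟩
        exact ⟨a • f, hsmul a f hf, MemLp.toLp_const_smul a (hmem f hf)⟩ }
  obtain ⟨g, hgT, horth, hnorm, hdense⟩ := exists_orthoSeq128 T
  have hch : ∀ n, ∃ (f : X → ℂ) (hS : S f), (hmem f hS).toLp f = g n := fun n => hgT n
  choose p₀ hp₀S hp₀ using hch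
  classical
  let p : ℕ → X → ℂ := fun n => if g n = 0 then 0 else p₀ n
  have hpS : ∀ n, S (p n) := by
    intro n
    by_cases h : g n = 0
    · simp only [p, h, if_true]; exact h0
    · simp only [p, h, if_false]; exact hp₀S n
  have hp : ∀ n, (hmem (p n) (hpS n)).toLp (p n) = g n := by
    intro n
    by_cases h : g n = 0
    · have e : p n = 0 := by simp only [p, h, if_true]
      rw [h]
      have := MemLp.toLp_zero (hmem 0 h0)
      simp only [e]
      exact this
    · have e : p n = p₀ n := by simp only [p, h, if_false]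
      simp only [e]
      exact hp₀ n
  have hint : ∀ (f : X → ℂ) (hf : S f) (n : ℕ),
      ∫ x, f x * conj (p n x) ∂ν = ⟪g n, (hmem f hf).toLp f⟫_ℂ := by
    intro f hf n
    rw [← hp n, inner_toLp128]
  refine ⟨p, hpS, ?_, ?_, ?_⟩
  · intro n m hnm
    rw [hint (p n) (hpS n) m, hp n]
    exact horth m n (Ne.symm hnm)
  · intro n
    by_cases h : g n = 0
    · right
      simp only [p, h, if_true]
    · left
      rw [hint (p n) (hpS n) n, hp n, inner_self_eq_norm_sq_to_K]
      rcases hnorm n with h1 | h1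
      · rw [h1]; simp
      · exact absurd h1 h
  · intro f hf
    have hx : (hmem f hf).toLp f ∈ closure (Submodule.span ℂ (Set.range g) : Set (Lp ℂ 2 ν)) :=
      hdense ⟨f, hf, rfl⟩
    have hP := parseval_of_mem_closure128 g horth hnorm _ hx
    have e1 : (fun n => ‖∫ x, f x * conj (p n x) ∂ν‖ ^ 2)
        = fun n => ‖⟪g n, (hmem f hf).toLp f⟫_ℂ‖ ^ 2 := by
      funext n
      rw [hint f hf n]
    have e2 : (∫ x, f x * conj (f x) ∂ν).re = ‖(hmem f hf).toLp f‖ ^ 2 := by
      rw [← inner_toLp128 ν (hmem f hf) (hmem f hf), inner_self_eq_norm_sq_to_K]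
      norm_cast
    rw [e1, e2]
    exact hP

end L2

end Fermat.Agent.LT.T7.H128
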