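import Fermat.Agent.LT.T1.H11.LocComp
import Fermat.Agent.LT.T7.H534.DownBasisSpec
import Fermat.Agent.LT.T7.H128.SubSeqCore

/-!
# Row LT, tower T7, leaf T7.L2.3.5.7 `SD534.SubSeqC` (helper128, SPARE of row 2185)

OFF-MAIN.  `subSeqC128 K : Fermat.Agent.LT.T7.SD534.SubSeqC K`, VERBATIM, unconditional, every
number field `K`.

Route: `GL₂(𝔸_K)` is second countable (`locCompC_h11`, helper11, leaf T1.01), so the Borel
σ-algebra is countably generated and `L²(F, μ)` is separable (Mathlib,
`MeasureTheory.Lp.SecondCountableTopology`); cusp functions are continuous and bounded, hence in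
`L²(F, μ)` (`μ F < ∞`); Gram--Schmidt on a dense sequence of the image of `S`
(`SubSeqCore.lean`, Mathlib only).
-/

set_option autoImplicit false

open IsDedekindDomain NumberField MeasureTheory
open Fermat.Agent.LT.H556.A0 Fermat.Agent.LT.T5

noncomputable section

namespace Fermat.Agent.LT.T7.H128

attribute [local instance] Fermat.Agent.LT.T5.instMeasurableSpaceG

/-- **T7.L2.3.5.7.**  `SD534.SubSeqC K`. -/
theorem subSeqC128 (K : Type) [Field K] [NumberField K] :
    Fermat.Agent.LT.T7.SD534.SubSeqC K := by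
  intro μ F r 𝔫 _ hF _ S hSV hS0 hSadd hSsmul
  have hB : BorelSpace (G K) := ⟨rfl⟩
  have hsc : SecondCountableTopology (G K) := (Fermat.Agent.LT.T1.H11.locCompC_h11 K).2.2.2
  have hfin : IsFiniteMeasure (μ.restrict F) := ⟨by simpa using hF.finite⟩
  have hmem : ∀ f, S f → MemLp f 2 (μ.restrict F) := by
    intro f hf
    have hc : T5.IsCuspFn 𝔫 T5.trivType r f := hSV f hf
    obtain ⟨C, hC⟩ := hc.bdd
    exact MemLp.of_bound hc.cont.aestronglyMeasurable C (Filter.Eventually.of_forall hC)
  have hcg : MeasurableSpace.CountablyGenerated (G K) := inferInstance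
  have hsepm : MeasureTheory.IsSeparable (μ.restrict F) := inferInstance
  have hp1 : Fact ((1 : ENNReal) ≤ 2) := ⟨by norm_num⟩
  have hp2 : Fact ((2 : ENNReal) ≠ ⊤) := ⟨by norm_num⟩
  have h2c : SecondCountableTopology (Lp ℂ 2 (μ.restrict F)) :=
    MeasureTheory.Lp.SecondCountableTopology
  have hsepL : TopologicalSpace.SeparableSpace (Lp ℂ 2 (μ.restrict F)) := inferInstance
  obtain ⟨p, hpS, horth, hnorm, hpars⟩ :=
    exists_l2_seq128 (μ.restrict F) S hmem hS0 hSadd hSsmul
  exact ⟨p, hpS, horth, hnorm, hpars⟩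

end Fermat.Agent.LT.T7.H128
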